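import Fermat.Agent.S55.Places.NumberField

/-!
# S55 dictionary, part 3: decomposition and inertia groups

`K ⊆ ℚ̄` a number field, Galois over `ℚ`, `A` a valuation subring of `ℚ̄` over `ℓ`,
`P = pl_ideal K A` the prime of `𝓞 K` below `A`.

* `pl_ideal_smul`: `pl_ideal K (σ • A) = σ|_K • pl_ideal K A`.
* `pl_map_decomposition`: the image in `Gal(K/ℚ)` of the decomposition subgroup of `A` is the
  stabiliser of `P`.
* `pl_map_inertia`: the image in `Gal(K/ℚ)` of the inertia subgroup of `A` is the inertia group of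
  `P` (`AddSubgroup.inertia`, i.e. `{g | ∀ x : 𝓞 K, g • x - x ∈ P}`).
* `pl_inertia_eq_bot`: if `K` is unramified outside `S` (prelude sense) and `ℓ ∉ S`, the inertia
  group of `P` is trivial.
-/

set_option autoImplicit false
set_option linter.style.haveILetI false
set_option linter.unusedSectionVars false

namespace Fermat.Agent.S55

open Fermat.Agent.S54 Fermat.Agent.S14.Reduction NumberField IsDedekindDomain

attribute [local instance] Fermat.Agent.S54.galAction
attribute [local instance] Fermat.Agent.S14.Reduction.algebraIntQbar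

open scoped Pointwise

local notation "GQ" => (AlgebraicClosure ℚ ≃ₐ[ℚ] AlgebraicClosure ℚ)
local notation "Qbar" => AlgebraicClosure ℚ

/-- Instance-path repair: the default `Algebra ℚ (AlgebraicClosure ℚ)` is the division-ring one. -/
local instance pl_qbarIsAlgebraic' : Algebra.IsAlgebraic ℚ (AlgebraicClosure ℚ) :=
  AlgebraicClosure.isAlgebraic ℚ

local instance pl_qbarIsAlgClosure' : IsAlgClosure ℚ (AlgebraicClosure ℚ) :=
  ⟨inferInstance, inferInstance⟩

section Gal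

variable (K : IntermediateField ℚ Qbar) [FiniteDimensional ℚ K] [IsGalois ℚ K] [NumberField K]

/-- Compatibility of the two Galois actions on integers. -/
theorem pl_smul_toIntQbar (σ : GQ) (x : 𝓞 K) :
    σ • toIntQbar K x = toIntQbar K (AlgEquiv.restrictNormalHom K σ • x) := by
  apply Subtype.ext
  rw [coe_galAction_smul, coe_toIntQbar, coe_toIntQbar]
  exact (coe_restrictNormalHom K σ (x : K)).symm

theorem pl_under_eq (Q : Ideal intQbar) : Q.under (𝓞 K) = Q.comap (toIntQbar K) := rfl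

/-- Galois equivariance of `Q ↦ Q ∩ 𝓞 K`. -/
theorem pl_under_smul (Q : Ideal intQbar) (σ : GQ) :
    (σ • Q).under (𝓞 K) = AlgEquiv.restrictNormalHom K σ • Q.under (𝓞 K) := by
  ext x
  rw [pl_under_eq, Ideal.mem_comap, Ideal.mem_pointwise_smul_iff_inv_smul_mem,
    Ideal.mem_pointwise_smul_iff_inv_smul_mem, pl_under_eq, Ideal.mem_comap,
    pl_smul_toIntQbar, map_inv]

variable (A : ValuationSubring Qbar)

theorem pl_ideal_eq_under : pl_ideal K A = (pl_Q A).under (𝓞 K) := rfl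

/-- Galois equivariance of `A ↦ 𝔪_A ∩ 𝓞 K`. -/
theorem pl_ideal_smul (σ : GQ) :
    pl_ideal K (σ • A) = AlgEquiv.restrictNormalHom K σ • pl_ideal K A := by
  rw [pl_ideal_eq_under, pl_Q_smul, pl_under_smul, ← pl_ideal_eq_under]

/-- Elements of the fixing subgroup of `K` restrict to the identity. -/
theorem pl_restrict_fixing (n : K.fixingSubgroup) :
    AlgEquiv.restrictNormalHom K (n : GQ) = 1 := by
  have : (n : GQ) ∈ (AlgEquiv.restrictNormalHom (F := ℚ) (K₁ := Qbar) K).ker := by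
    rw [ker_restrictNormalHom]; exact n.2
  exact this

/-- Lifting an element of the stabiliser of `Q ∩ 𝓞 K` to the stabiliser of `Q`. -/
theorem pl_exists_lift_stabilizer (Q : Ideal intQbar) [Q.IsPrime] (g : K ≃ₐ[ℚ] K)
    (hg : g • Q.under (𝓞 K) = Q.under (𝓞 K)) :
    ∃ σ : GQ, σ • Q = Q ∧ AlgEquiv.restrictNormalHom K σ = g := by
  classical
  letI : TopologicalSpace intQbar := ⊥
  haveI : DiscreteTopology intQbar := ⟨rfl⟩
  haveI := galAction_continuousSMul
  have hNclosed : IsClosed (K.fixingSubgroup : Set GQ) :=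
    InfiniteGalois.fixingSubgroup_isClosed K
  haveI : CompactSpace K.fixingSubgroup := isCompact_iff_compactSpace.mp hNclosed.isCompact
  obtain ⟨σ₁, hσ₁⟩ := AlgEquiv.restrictNormalHom_surjective (F := ℚ) (K₁ := K) Qbar g
  have hunder : (σ₁ • Q).under (𝓞 K) = Q.under (𝓞 K) := by
    rw [pl_under_smul, hσ₁, hg]
  obtain ⟨n₁, hn₁⟩ := Algebra.IsInvariant.exists_smul_of_under_eq_of_profinite (A := 𝓞 K)
    (B := intQbar) (G := K.fixingSubgroup) Q (σ₁ • Q) hunder.symm
  refine ⟨(n₁ : GQ)⁻¹ * σ₁, ?_, ?_⟩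
  · rw [mul_smul, hn₁]
    exact inv_smul_smul (n₁ : GQ) Q
  · rw [map_mul, map_inv, pl_restrict_fixing, hσ₁, inv_one, one_mul]

/-- Lifting an element of the inertia group of `Q ∩ 𝓞 K` to the inertia group of `Q`. -/
theorem pl_exists_lift_inertia (Q : Ideal intQbar) [Q.IsPrime] (g : K ≃ₐ[ℚ] K)
    (hg : ∀ x : 𝓞 K, g • x - x ∈ Q.under (𝓞 K)) :
    ∃ σ : GQ, σ • Q = Q ∧ (∀ b : intQbar, σ • b - b ∈ Q) ∧
      AlgEquiv.restrictNormalHom K σ = g := by
  classical
  letI : TopologicalSpace intQbar := ⊥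
  haveI : DiscreteTopology intQbar := ⟨rfl⟩
  haveI := galAction_continuousSMul
  have hNclosed : IsClosed (K.fixingSubgroup : Set GQ) :=
    InfiniteGalois.fixingSubgroup_isClosed K
  haveI : CompactSpace K.fixingSubgroup := isCompact_iff_compactSpace.mp hNclosed.isCompact
  set P : Ideal (𝓞 K) := Q.under (𝓞 K) with hPdef
  haveI hQP : Q.LiesOver P := ⟨rfl⟩
  have hmemQ : ∀ x : 𝓞 K, toIntQbar K x ∈ Q ↔ x ∈ P := fun x => Iff.rfl
  -- `g` stabilises `P`
  have hgP : g • P = P := by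
    have hle : ∀ h : K ≃ₐ[ℚ] K, (∀ x : 𝓞 K, h • x - x ∈ P) → h • P ≤ P := by
      intro h hh x hx
      rw [Ideal.mem_pointwise_smul_iff_inv_smul_mem] at hx
      have h1 := hh (h⁻¹ • x)
      rw [smul_inv_smul] at h1
      have := P.sub_mem h1 (P.neg_mem hx)
      simpa using this
    apply le_antisymm (hle g hg)
    have hg' : ∀ x : 𝓞 K, g⁻¹ • x - x ∈ P := by
      intro x
      have h1 := hg (g⁻¹ • x)
      rw [smul_inv_smul] at h1
      have := P.neg_mem h1
      simpa using this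
    have := hle g⁻¹ hg'
    rwa [Ideal.pointwise_smul_subset_iff, inv_inv] at this
  obtain ⟨σ₂, hσ₂Q, hσ₂⟩ := pl_exists_lift_stabilizer K Q g hgP
  -- any lift of `g` acts trivially modulo `Q` on the image of `𝓞 K`
  have hkey : ∀ x : 𝓞 K, σ₂ • toIntQbar K x - toIntQbar K x ∈ Q := by
    intro x
    rw [pl_smul_toIntQbar, hσ₂, ← map_sub]
    exact (hmemQ _).2 (hg x)
  -- the automorphism of the residue ring of `Q` induced by `σ₂`
  let e : intQbar ≃+* intQbar := MulSemiringAction.toRingEquiv GQ intQbar σ₂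
  have he : ∀ b : intQbar, e b = σ₂ • b := fun _ => rfl
  have hmap : Q = Q.map (e : intQbar →+* intQbar) := by
    have h1 : σ₂ • Q = Q.map (e : intQbar →+* intQbar) := rfl
    rw [← h1, hσ₂Q]
  let φr : (intQbar ⧸ Q) ≃+* (intQbar ⧸ Q) := Ideal.quotientEquiv Q Q e hmap
  have hφr : ∀ b : intQbar, φr (Ideal.Quotient.mk Q b) = Ideal.Quotient.mk Q (σ₂ • b) :=
    fun b => Ideal.quotientEquiv_mk Q Q e hmap b
  let φ : (intQbar ⧸ Q) ≃ₐ[𝓞 K ⧸ P] (intQbar ⧸ Q) :=
    AlgEquiv.ofRingEquiv (f := φr) (by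
      intro x
      obtain ⟨a, rfl⟩ := Ideal.Quotient.mk_surjective x
      rw [Ideal.Quotient.algebraMap_mk_of_liesOver, hφr, Ideal.Quotient.eq,
        algebraMap_intQbar_apply]
      exact hkey a)
  obtain ⟨n₂, hn₂⟩ := Ideal.Quotient.stabilizerHom_surjective_of_profinite
    (G := K.fixingSubgroup) P Q φ
  have hn₂b : ∀ b : intQbar, ((n₂ : K.fixingSubgroup) : GQ) • b - σ₂ • b ∈ Q := by
    intro b
    have h1 := DFunLike.congr_fun hn₂ (Ideal.Quotient.mk Q b)
    rw [Ideal.Quotient.stabilizerHom_apply] at h1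
    have h2 : φ (Ideal.Quotient.mk Q b) = Ideal.Quotient.mk Q (σ₂ • b) := hφr b
    rw [h2] at h1
    exact Ideal.Quotient.eq.mp h1
  have hn₂Q : ((n₂ : K.fixingSubgroup) : GQ) • Q = Q := n₂.2
  refine ⟨((n₂ : K.fixingSubgroup) : GQ)⁻¹ * σ₂, ?_, ?_, ?_⟩
  · rw [mul_smul, hσ₂Q, inv_smul_eq_iff, hn₂Q]
  · intro b
    have h1 : -(((n₂ : K.fixingSubgroup) : GQ) • b - σ₂ • b) ∈ Q := Q.neg_mem (hn₂b b)
    have h2 := Ideal.smul_mem_pointwise_smul (((n₂ : K.fixingSubgroup) : GQ)⁻¹) _ Q h1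
    have h3 : ((n₂ : K.fixingSubgroup) : GQ)⁻¹ • Q = Q := by
      rw [inv_smul_eq_iff, hn₂Q]
    rw [h3, smul_neg, smul_sub, inv_smul_smul, neg_sub, ← mul_smul] at h2
    exact h2
  · rw [map_mul, map_inv, pl_restrict_fixing, hσ₂, inv_one, one_mul]

/-- The image in `Gal(K/ℚ)` of the decomposition subgroup of `A` is the stabiliser of the prime of
`𝓞 K` below `A`. -/
theorem pl_map_decomposition {ℓ : ℕ} (hℓ : ℓ.Prime) (hA : A.LiesOverPrime ℓ) :
    (A.decompositionSubgroup ℚ).map (AlgEquiv.restrictNormalHom K) =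
      MulAction.stabilizer (K ≃ₐ[ℚ] K) (pl_ideal K A) := by
  ext g
  rw [Subgroup.mem_map, MulAction.mem_stabilizer_iff]
  constructor
  · rintro ⟨σ, hσ, rfl⟩
    have h1 : σ • A = A := hσ
    rw [← pl_ideal_smul, h1]
  · intro hg
    obtain ⟨σ, hσQ, hσ⟩ := pl_exists_lift_stabilizer K (pl_Q A) g hg
    exact ⟨σ, (pl_mem_decomposition_iff A hℓ hA σ).2 hσQ, hσ⟩

/-- The image in `Gal(K/ℚ)` of the inertia subgroup of `A` is the inertia group of the prime of
`𝓞 K` below `A`. -/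
theorem pl_map_inertia {ℓ : ℕ} (hℓ : ℓ.Prime) (hA : A.LiesOverPrime ℓ) :
    (A.inertiaSubgroupIn ℚ).map (AlgEquiv.restrictNormalHom K) =
      (pl_ideal K A).toAddSubgroup.inertia (K ≃ₐ[ℚ] K) := by
  ext g
  rw [Subgroup.mem_map, AddSubgroup.mem_inertia]
  constructor
  · rintro ⟨σ, hσ, rfl⟩ x
    obtain ⟨-, h2⟩ := (pl_mem_inertia_iff A hℓ hA σ).1 hσ
    have h3 := h2 (toIntQbar K x)
    rw [pl_smul_toIntQbar, ← map_sub] at h3
    exact h3
  · intro hg
    obtain ⟨σ, hσQ, hσtriv, hσ⟩ := pl_exists_lift_inertia K (pl_Q A) g hg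
    exact ⟨σ, (pl_mem_inertia_iff A hℓ hA σ).2 ⟨hσQ, hσtriv⟩, hσ⟩

/-- If `K` is unramified outside `S` in the prelude's sense and `ℓ ∉ S`, then the inertia group in
`Gal(K/ℚ)` of every prime of `𝓞 K` over `ℓ` is trivial. -/
theorem pl_inertia_eq_bot {S : Finset Nat.Primes} (hK : K.IsUnramifiedOutside S)
    (q : Nat.Primes) (hq : q ∉ S) (hAq : A.LiesOverPrime (q : ℕ)) :
    (pl_ideal K A).toAddSubgroup.inertia (K ≃ₐ[ℚ] K) = ⊥ := by
  rw [← pl_map_inertia K A q.2 hAq, eq_bot_iff]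
  rintro g ⟨σ, hσ, rfl⟩
  have h1 := hK.2 q hq A hAq hσ
  rw [Subgroup.mem_bot]
  have : σ ∈ (AlgEquiv.restrictNormalHom (F := ℚ) (K₁ := Qbar) K).ker := by
    rw [ker_restrictNormalHom]; exact h1
  exact this

end Gal

end Fermat.Agent.S55
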