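import Fermat.Agent.S14.Reduction.Lift
import Fermat.Agent.S55.LevelFields

/-!
# S55 dictionary, part 1: valuation subrings of `ℚ̄` and primes of the ring of algebraic integers

The prelude speaks about places of `ℚ̄` as valuation subrings `A` with `A.LiesOverPrime q`; the
class field theory side speaks about primes of rings of integers.  This file identifies the
valuation subrings of `ℚ̄` over `q` with the primes of `intQbar` (the ring of all algebraic
integers, `S54/Frobenius.lean`) over `q`.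

* `pl_intQbar_le`: every algebraic integer lies in every valuation subring.
* `pl_Q A`: the prime `𝔪_A ∩ intQbar`.
* `pl_valSubring_eq`: `valSubring (pl_Q A) = A`.
* `pl_mem_decomposition_iff`, `pl_mem_inertia_iff`: decomposition and inertia subgroups of `A` in
  terms of the action on `intQbar`.
-/

set_option autoImplicit false
set_option linter.style.haveILetI false
set_option linter.unusedSectionVars false

namespace Fermat.Agent.S55

open Fermat.Agent.S54

attribute [local instance] Fermat.Agent.S54.galAction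

open scoped Pointwise

local notation "GQ" => (AlgebraicClosure ℚ ≃ₐ[ℚ] AlgebraicClosure ℚ)
local notation "Qbar" => AlgebraicClosure ℚ

/-- Instance-path repair: the default `Algebra ℚ (AlgebraicClosure ℚ)` is the division-ring one. -/
local instance pl_qbarIsAlgebraic : Algebra.IsAlgebraic ℚ (AlgebraicClosure ℚ) :=
  AlgebraicClosure.isAlgebraic ℚ

local instance pl_qbarIsAlgClosure : IsAlgClosure ℚ (AlgebraicClosure ℚ) :=
  ⟨inferInstance, inferInstance⟩

section A

variable (A : ValuationSubring Qbar)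

/-- Every algebraic integer lies in every valuation subring of `ℚ̄`. -/
theorem pl_intQbar_le (b : intQbar) : (b : Qbar) ∈ A := by
  have hb : IsIntegral ℤ (b : Qbar) := b.2
  have hb' : IsIntegral A (b : Qbar) := hb.tower_top
  obtain ⟨y, hy⟩ := IsIntegrallyClosed.isIntegral_iff.1 hb'
  rw [← hy]
  exact y.2

/-- The prime `𝔪_A ∩ intQbar` of the ring of algebraic integers. -/
def pl_Q : Ideal intQbar where
  carrier := {b | A.valuation (b : Qbar) < 1}
  add_mem' {a b} ha hb := by
    show A.valuation ((a + b : intQbar) : Qbar) < 1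
    push_cast
    exact Valuation.map_add_lt _ ha hb
  zero_mem' := by
    show A.valuation ((0 : intQbar) : Qbar) < 1
    simp
  smul_mem' c {b} hb := by
    show A.valuation ((c • b : intQbar) : Qbar) < 1
    rw [smul_eq_mul]
    push_cast
    rw [map_mul]
    have hc : A.valuation (c : Qbar) ≤ 1 :=
      (ValuationSubring.valuation_le_one_iff A _).2 (pl_intQbar_le A c)
    calc A.valuation (c : Qbar) * A.valuation (b : Qbar)
        ≤ 1 * A.valuation (b : Qbar) := mul_le_mul_left hc _
      _ = A.valuation (b : Qbar) := one_mul _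
      _ < 1 := hb

theorem pl_mem_Q {b : intQbar} : b ∈ pl_Q A ↔ A.valuation (b : Qbar) < 1 := Iff.rfl

theorem pl_notMem_Q {b : intQbar} : b ∉ pl_Q A ↔ A.valuation (b : Qbar) = 1 := by
  rw [pl_mem_Q, not_lt]
  have hb : A.valuation (b : Qbar) ≤ 1 :=
    (ValuationSubring.valuation_le_one_iff A _).2 (pl_intQbar_le A b)
  exact ⟨fun h => le_antisymm hb h, fun h => h.ge⟩

instance pl_Q_isPrime : (pl_Q A).IsPrime := by
  refine ⟨?_, ?_⟩
  · rw [Ideal.ne_top_iff_one, pl_notMem_Q]
    simp
  · intro a b hab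
    by_contra hcon
    rw [not_or] at hcon
    have ha := (pl_notMem_Q A).1 hcon.1
    have hb := (pl_notMem_Q A).1 hcon.2
    have h1 : A.valuation ((a * b : intQbar) : Qbar) < 1 := hab
    push_cast at h1
    rw [map_mul, ha, hb, one_mul] at h1
    exact lt_irrefl _ h1

theorem pl_Q_liesOver {ℓ : ℕ} (hℓ : ℓ.Prime) (hA : A.LiesOverPrime ℓ) :
    (pl_Q A).LiesOver (Ideal.span {(ℓ : ℤ)}) := by
  haveI hspanmax : (Ideal.span {(ℓ : ℤ)}).IsMaximal :=
    PrincipalIdealRing.isMaximal_of_irreducible (Nat.prime_iff_prime_int.mp hℓ).irreducible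
  constructor
  refine hspanmax.eq_of_le (Ideal.IsPrime.ne_top (Ideal.IsPrime.under ℤ (pl_Q A))) ?_
  rw [Ideal.span_singleton_le_iff_mem, Ideal.under_def, Ideal.mem_comap, pl_mem_Q]
  have h2 : ((algebraMap ℤ intQbar (ℓ : ℤ) : intQbar) : Qbar) = ((ℓ : ℕ) : Qbar) := by
    simp
  rw [h2]
  exact (ValuationSubring.mem_nonunits_iff (A := A)).1 hA

/-- Every valuation subring of `ℚ̄` over `ℓ` is the localisation of the ring of algebraic integers
at a prime over `ℓ`. -/
theorem pl_valSubring_eq {ℓ : ℕ} (hℓ : ℓ.Prime) (hA : A.LiesOverPrime ℓ) :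
    haveI := pl_Q_liesOver A hℓ hA
    valSubring hℓ (pl_Q A) = A := by
  haveI := pl_Q_liesOver A hℓ hA
  have hle : ∀ x : Qbar, x ∈ valSubring hℓ (pl_Q A) → x ∈ A := by
    rintro x ⟨b, s, hs, hxs⟩
    have hs1 := (pl_notMem_Q A).1 hs
    have hs0 : (s : Qbar) ≠ 0 := by
      intro h0; rw [h0, map_zero] at hs1; exact zero_ne_one hs1
    rw [← ValuationSubring.valuation_le_one_iff]
    have hx : x = (b : Qbar) * (s : Qbar)⁻¹ := by
      rw [← hxs]; field_simp
    rw [hx, map_mul, map_inv₀, hs1, inv_one, mul_one]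
    exact (ValuationSubring.valuation_le_one_iff A _).2 (pl_intQbar_le A b)
  have hnon : ∀ y : Qbar, y ∈ valSubring hℓ (pl_Q A) → y⁻¹ ∉ valSubring hℓ (pl_Q A) →
      A.valuation y < 1 := by
    rintro y ⟨b, s, hs, hys⟩ hyinv
    have hs1 := (pl_notMem_Q A).1 hs
    have hs0 : (s : Qbar) ≠ 0 := by
      intro h0; rw [h0, map_zero] at hs1; exact zero_ne_one hs1
    have hbQ : b ∈ pl_Q A := by
      by_contra hb
      apply hyinv
      have hb1 := (pl_notMem_Q A).1 hb
      have hb0 : (b : Qbar) ≠ 0 := by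
        intro h0; rw [h0, map_zero] at hb1; exact zero_ne_one hb1
      refine ⟨s, b, hb, ?_⟩
      have hy0 : y ≠ 0 := by
        intro h0; rw [h0, zero_mul] at hys; exact hb0 hys.symm
      rw [← hys]; field_simp
    have hy : y = (b : Qbar) * (s : Qbar)⁻¹ := by
      rw [← hys]; field_simp
    rw [hy, map_mul, map_inv₀, hs1, inv_one, mul_one]
    exact hbQ
  apply le_antisymm
  · exact hle
  · intro x hx
    by_contra hxV
    have hxinv : x⁻¹ ∈ valSubring hℓ (pl_Q A) :=
      ((valSubring hℓ (pl_Q A)).mem_or_inv_mem x).resolve_left hxV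
    have h1 := hnon x⁻¹ hxinv (by rwa [inv_inv])
    have h2 : A.valuation x ≤ 1 := (ValuationSubring.valuation_le_one_iff A _).2 hx
    have hx0 : x ≠ 0 := by
      intro h0; apply hxV; rw [h0]; exact zero_mem _
    have h3 : A.valuation x * A.valuation x⁻¹ = 1 := by
      rw [← map_mul, mul_inv_cancel₀ hx0, map_one]
    have h4 : A.valuation x * A.valuation x⁻¹ < 1 := by
      calc A.valuation x * A.valuation x⁻¹ ≤ 1 * A.valuation x⁻¹ := mul_le_mul_left h2 _
        _ = A.valuation x⁻¹ := one_mul _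
        _ < 1 := h1
    rw [h3] at h4
    exact lt_irrefl _ h4

/-- Membership in the nonunits of a conjugate valuation subring. -/
theorem pl_mem_nonunits_smul_iff (σ : GQ) {x : Qbar} :
    x ∈ (σ • A).nonunits ↔ σ⁻¹ x ∈ A.nonunits := by
  constructor
  · intro h
    have := tl_map_mem_nonunits_smul (K := ℚ) (σ • A) σ⁻¹ h
    rwa [inv_smul_smul] at this
  · intro h
    have := tl_map_mem_nonunits_smul (K := ℚ) A σ h
    rwa [show σ (σ⁻¹ x) = x from σ.apply_symm_apply x] at this

/-- Galois equivariance of `A ↦ 𝔪_A ∩ intQbar`. -/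
theorem pl_Q_smul (σ : GQ) : pl_Q (σ • A) = σ • pl_Q A := by
  ext b
  rw [Ideal.mem_pointwise_smul_iff_inv_smul_mem, pl_mem_Q, pl_mem_Q,
    ← ValuationSubring.mem_nonunits_iff, ← ValuationSubring.mem_nonunits_iff,
    pl_mem_nonunits_smul_iff]
  rfl

/-- A valuation subring of `ℚ̄` over `ℓ` is determined by its prime of `intQbar`. -/
theorem pl_eq_of_Q_eq {A A' : ValuationSubring Qbar} {ℓ : ℕ} (hℓ : ℓ.Prime)
    (hA : A.LiesOverPrime ℓ) (hA' : A'.LiesOverPrime ℓ) (h : pl_Q A = pl_Q A') : A = A' := by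
  haveI := pl_Q_liesOver A hℓ hA
  haveI := pl_Q_liesOver A' hℓ hA'
  rw [← pl_valSubring_eq A hℓ hA, ← pl_valSubring_eq A' hℓ hA']
  congr 1

/-- The decomposition subgroup of `A` is the stabiliser of the prime `𝔪_A ∩ intQbar`. -/
theorem pl_mem_decomposition_iff {ℓ : ℕ} (hℓ : ℓ.Prime) (hA : A.LiesOverPrime ℓ) (σ : GQ) :
    σ ∈ A.decompositionSubgroup ℚ ↔ σ • pl_Q A = pl_Q A := by
  constructor
  · intro h
    have h1 : σ • A = A := h
    rw [← pl_Q_smul, h1]
  · intro h
    show σ • A = A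
    refine pl_eq_of_Q_eq hℓ (tl_liesOverPrime_smul σ A ℓ hA) hA ?_
    rw [pl_Q_smul, h]

/-- The inertia subgroup of `A` in terms of the action on algebraic integers. -/
theorem pl_mem_inertia_iff {ℓ : ℕ} (hℓ : ℓ.Prime) (hA : A.LiesOverPrime ℓ) (σ : GQ) :
    σ ∈ A.inertiaSubgroupIn ℚ ↔ σ • pl_Q A = pl_Q A ∧ ∀ b : intQbar, σ • b - b ∈ pl_Q A := by
  rw [tl_mem_inertiaSubgroupIn_iff]
  constructor
  · rintro ⟨h1, h2⟩
    refine ⟨by rw [← pl_Q_smul, h1], fun b => ?_⟩
    rw [pl_mem_Q, ← ValuationSubring.mem_nonunits_iff]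
    exact h2 (b : Qbar) (pl_intQbar_le A b)
  · rintro ⟨h1, h2⟩
    haveI := pl_Q_liesOver A hℓ hA
    have hmem := Fermat.Agent.S14.Reduction.mem_inertiaSubgroupIn_valSubring hℓ (pl_Q A) h1 h2
    rw [pl_valSubring_eq A hℓ hA] at hmem
    exact (tl_mem_inertiaSubgroupIn_iff A σ).1 hmem

/-- The absolute Galois group acts transitively on the valuation subrings of `ℚ̄` over `ℓ`. -/
theorem pl_exists_smul_eq {A A' : ValuationSubring Qbar} {ℓ : ℕ} (hℓ : ℓ.Prime)
    (hA : A.LiesOverPrime ℓ) (hA' : A'.LiesOverPrime ℓ) : ∃ τ : GQ, τ • A = A' := by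
  letI : TopologicalSpace intQbar := ⊥
  haveI : DiscreteTopology intQbar := ⟨rfl⟩
  haveI := galAction_continuousSMul
  haveI := galAction_isInvariant
  haveI h1 := pl_Q_liesOver A hℓ hA
  haveI h2 := pl_Q_liesOver A' hℓ hA'
  have hunder : (pl_Q A).under ℤ = (pl_Q A').under ℤ := by
    rw [← h1.over, ← h2.over]
  obtain ⟨τ, hτ⟩ := Algebra.IsInvariant.exists_smul_of_under_eq_of_profinite (A := ℤ)
    (B := intQbar) (G := GQ) (pl_Q A) (pl_Q A') hunder
  refine ⟨τ, pl_eq_of_Q_eq hℓ (tl_liesOverPrime_smul τ A ℓ hA) hA' ?_⟩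
  rw [pl_Q_smul, hτ]

end A

section Q

variable {ℓ : ℕ} (hℓ : ℓ.Prime) (Q : Ideal intQbar) [Q.IsPrime]
  [hQP : Q.LiesOver (Ideal.span {(ℓ : ℤ)})]

/-- The prime of `intQbar` attached to the valuation subring of a prime `Q` is `Q`. -/
theorem pl_Q_valSubring : pl_Q (valSubring hℓ Q) = Q := by
  ext b
  rw [pl_mem_Q, ← ValuationSubring.mem_nonunits_iff]
  constructor
  · intro h
    by_contra hb
    rw [ValuationSubring.mem_nonunits_iff_or] at h
    rcases h with h | h
    · apply hb
      have : b = 0 := Subtype.ext h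
      rw [this]; exact Q.zero_mem
    · apply h
      have hb0 : (b : Qbar) ≠ 0 := by
        intro h0
        apply hb
        have : b = 0 := Subtype.ext h0
        rw [this]; exact Q.zero_mem
      refine ⟨1, b, hb, ?_⟩
      rw [inv_mul_cancel₀ hb0]; rfl
  · intro h
    have h1 : (1 : intQbar) ∉ Q := (Ideal.ne_top_iff_one Q).mp (Ideal.IsPrime.ne_top ‹_›)
    refine mem_nonunits_valSubring hℓ Q h h1 ?_
    simp

end Q

end Fermat.Agent.S55
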