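import Fermat.Agent.S55.Places.Galois
import Fermat.Agent.S55.LocalImage

/-!
# S55 dictionary, part 4: the distinguished place `padicPlace q`

* `pl_padicPlace_liesOver`: `padicPlace q` lies over `q`.
* `pl_range_local`: for a number field `L ⊆ ℚ̄` Galois over `ℚ`, the image `D_q(L)` of the local
  Galois group `Gal(PadicAlgCl q / ℚ_q)` in `Gal(L/ℚ)` is the stabiliser of the prime
  `pl_ideal L (padicPlace q)` of `𝓞 L`.
-/

set_option autoImplicit false

namespace Fermat.Agent.S55

open NumberField

open scoped Pointwise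

local notation "GQ" => (AlgebraicClosure ℚ ≃ₐ[ℚ] AlgebraicClosure ℚ)
local notation "Qbar" => AlgebraicClosure ℚ

variable (q : ℕ) [Fact q.Prime]

theorem pl_padicPlace_liesOver : (padicPlace q).LiesOverPrime q := by
  have hq : q.Prime := Fact.out
  show ((q : ℕ) : Qbar) ∈ (padicPlace q).nonunits
  rw [ValuationSubring.mem_nonunits_iff_or]
  right
  have hq0 : ((q : ℕ) : Qbar) ≠ 0 := Nat.cast_ne_zero.2 hq.ne_zero
  rw [← li_abv_lt_one_iff q hq0, li_abv_natCast_q]
  have h1 : (1 : ℝ) < q := by exact_mod_cast hq.one_lt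
  exact inv_lt_one_of_one_lt₀ h1

/-- The image `D_q(L)` of the local Galois group in `Gal(L/ℚ)` is the decomposition group (the
stabiliser) of the prime of `𝓞 L` below `padicPlace q`. -/
theorem pl_range_local (L : IntermediateField ℚ Qbar) [FiniteDimensional ℚ L] [IsGalois ℚ L]
    [NumberField L] :
    ((AlgEquiv.restrictNormalHom (F := ℚ) (K₁ := Qbar) L).comp (localGaloisToGlobal q)).range =
      MulAction.stabilizer (L ≃ₐ[ℚ] L) (pl_ideal L (padicPlace q)) := by
  rw [li_range_restrictNormalHom,
    pl_map_decomposition L (padicPlace q) (Fact.out : q.Prime) (pl_padicPlace_liesOver q)]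

/-- Every valuation subring of `ℚ̄` over `q` is a Galois conjugate of `padicPlace q`. -/
theorem pl_exists_smul_padicPlace (A : ValuationSubring Qbar) (hA : A.LiesOverPrime q) :
    ∃ τ : GQ, τ • padicPlace q = A :=
  pl_exists_smul_eq (Fact.out : q.Prime) (pl_padicPlace_liesOver q) hA

end Fermat.Agent.S55
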