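import Fermat.Agent.S55.Places.Basic
import Fermat.Agent.S55.Kummer.Unram

/-!
# S55 dictionary, part 2: valuation subrings of `ℚ̄` and primes of number fields

For a number field `K ⊆ ℚ̄` (an `IntermediateField ℚ (AlgebraicClosure ℚ)`) and a valuation
subring `A` of `ℚ̄` over a prime `ℓ`:

* `pl_ideal K A`: the prime `𝔪_A ∩ 𝓞 K`; `pl_prime K A hℓ hA : HeightOneSpectrum (𝓞 K)`.
* `pl_valuation_le_one_iff` etc.: the `pl_prime`-adic valuation of `x ∈ K` is `≤ 1` (`< 1`, `= 1`)
  iff `A.valuation x` is.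
* `pl_exists_valuationSubring`: every prime of `𝓞 K` over `q` comes from a valuation subring over
  `q`.
* `pl_isSUnit_iff`: `S`-units in the valuation-subring language (`ku_IsSUnit`) are the `S`-units in
  the sense of primes of `𝓞 K` (Mathlib's `Set.unit` for the primes over `S`).
-/

set_option autoImplicit false
set_option linter.style.haveILetI false
set_option linter.unusedSectionVars false

namespace Fermat.Agent.S55

open Fermat.Agent.S54 Fermat.Agent.S14.Reduction NumberField IsDedekindDomain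

attribute [local instance] Fermat.Agent.S54.galAction

open scoped Pointwise

local notation "GQ" => (AlgebraicClosure ℚ ≃ₐ[ℚ] AlgebraicClosure ℚ)
local notation "Qbar" => AlgebraicClosure ℚ

section NF

variable (K : IntermediateField ℚ Qbar) [NumberField K] (A : ValuationSubring Qbar)

/-- The prime `𝔪_A ∩ 𝓞 K`. -/
noncomputable def pl_ideal : Ideal (𝓞 K) := (pl_Q A).comap (toIntQbar K)

theorem pl_mem_ideal {x : 𝓞 K} :
    x ∈ pl_ideal K A ↔ A.valuation (((x : K) : Qbar)) < 1 := Iff.rfl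

theorem pl_notMem_ideal {x : 𝓞 K} :
    x ∉ pl_ideal K A ↔ A.valuation (((x : K) : Qbar)) = 1 :=
  pl_notMem_Q A (b := toIntQbar K x)

instance pl_ideal_isPrime : (pl_ideal K A).IsPrime := Ideal.comap_isPrime _ _

theorem pl_natCast_mem_ideal {ℓ : ℕ} (hA : A.LiesOverPrime ℓ) :
    ((ℓ : ℕ) : 𝓞 K) ∈ pl_ideal K A := by
  rw [pl_mem_ideal]
  have : (((( ℓ : ℕ) : 𝓞 K) : K) : Qbar) = ((ℓ : ℕ) : Qbar) := by simp
  rw [this]
  exact (ValuationSubring.mem_nonunits_iff (A := A)).1 hA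

theorem pl_ideal_ne_bot {ℓ : ℕ} (hℓ : ℓ.Prime) (hA : A.LiesOverPrime ℓ) :
    pl_ideal K A ≠ ⊥ := by
  intro h
  have h1 := pl_natCast_mem_ideal K A hA
  rw [h, Ideal.mem_bot] at h1
  have : ((ℓ : ℕ) : 𝓞 K) ≠ 0 := Nat.cast_ne_zero.2 hℓ.ne_zero
  exact this h1

/-- The prime of `𝓞 K` below a valuation subring of `ℚ̄` over `ℓ`. -/
noncomputable def pl_prime {ℓ : ℕ} (hℓ : ℓ.Prime) (hA : A.LiesOverPrime ℓ) :
    HeightOneSpectrum (𝓞 K) where
  asIdeal := pl_ideal K A
  isPrime := inferInstance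
  ne_bot := pl_ideal_ne_bot K A hℓ hA

@[simp] theorem pl_prime_asIdeal {ℓ : ℕ} (hℓ : ℓ.Prime) (hA : A.LiesOverPrime ℓ) :
    (pl_prime K A hℓ hA).asIdeal = pl_ideal K A := rfl

variable {ℓ : ℕ} (hℓ : ℓ.Prime) (hA : A.LiesOverPrime ℓ)

theorem pl_valuation_le_one_of_le_one {x : K}
    (h : (pl_prime K A hℓ hA).valuation K x ≤ 1) : A.valuation (x : Qbar) ≤ 1 := by
  obtain ⟨n, d, hnd⟩ :=
    HeightOneSpectrum.exists_primeCompl_mul_eq_of_integer (pl_prime K A hℓ hA) x h
  have hd : A.valuation ((((d : 𝓞 K) : K)) : Qbar) = 1 := (pl_notMem_ideal K A).1 d.2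
  have hn : A.valuation (((n : K)) : Qbar) ≤ 1 :=
    (ValuationSubring.valuation_le_one_iff A _).2 (pl_intQbar_le A (toIntQbar K n))
  have h1 : (x : Qbar) * ((((d : 𝓞 K) : K)) : Qbar) = ((n : K) : Qbar) := by
    have := congrArg (fun y : K => (y : Qbar)) hnd
    simpa using this
  have h2 := congrArg A.valuation h1
  rw [map_mul, hd, mul_one] at h2
  rw [h2]; exact hn

theorem pl_valuation_lt_one_of_lt_one {x : K}
    (h : (pl_prime K A hℓ hA).valuation K x < 1) : A.valuation (x : Qbar) < 1 := by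
  obtain ⟨n, d, hnd⟩ :=
    HeightOneSpectrum.exists_primeCompl_mul_eq_of_integer (pl_prime K A hℓ hA) x h.le
  have hd : A.valuation ((((d : 𝓞 K) : K)) : Qbar) = 1 := (pl_notMem_ideal K A).1 d.2
  have hdv : (pl_prime K A hℓ hA).valuation K (algebraMap (𝓞 K) K d) = 1 := by
    rw [HeightOneSpectrum.valuation_of_algebraMap,
      HeightOneSpectrum.intValuation_eq_one_iff_mem_primeCompl]
    exact d.2
  have hnv : (pl_prime K A hℓ hA).valuation K (algebraMap (𝓞 K) K n) < 1 := by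
    rw [← hnd, map_mul, hdv, mul_one]; exact h
  have hn : A.valuation (((n : K)) : Qbar) < 1 := by
    rw [HeightOneSpectrum.valuation_lt_one_iff_mem] at hnv
    exact (pl_mem_ideal K A).1 hnv
  have h1 : (x : Qbar) * ((((d : 𝓞 K) : K)) : Qbar) = ((n : K) : Qbar) := by
    have := congrArg (fun y : K => (y : Qbar)) hnd
    simpa using this
  have h2 := congrArg A.valuation h1
  rw [map_mul, hd, mul_one] at h2
  rw [h2]; exact hn

/-- **Comparison of valuations.** -/
theorem pl_valuation_le_one_iff (x : K) :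
    (pl_prime K A hℓ hA).valuation K x ≤ 1 ↔ A.valuation (x : Qbar) ≤ 1 := by
  refine ⟨pl_valuation_le_one_of_le_one K A hℓ hA, fun h => ?_⟩
  by_contra hcon
  rw [not_le] at hcon
  have hx0 : x ≠ 0 := by
    intro h0; rw [h0, map_zero] at hcon; exact not_lt.2 zero_le_one hcon
  have h1 : (pl_prime K A hℓ hA).valuation K x⁻¹ < 1 := by
    rw [map_inv₀]
    exact inv_lt_one_of_one_lt₀ hcon
  have h2 := pl_valuation_lt_one_of_lt_one K A hℓ hA h1
  have h3 : A.valuation (x : Qbar) * A.valuation ((x⁻¹ : K) : Qbar) = 1 := by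
    rw [← map_mul]
    have : (x : Qbar) * ((x⁻¹ : K) : Qbar) = 1 := by
      have := congrArg (fun y : K => (y : Qbar)) (mul_inv_cancel₀ hx0)
      simpa using this
    rw [this, map_one]
  have h4 : A.valuation (x : Qbar) * A.valuation ((x⁻¹ : K) : Qbar) < 1 := by
    calc A.valuation (x : Qbar) * A.valuation ((x⁻¹ : K) : Qbar)
        ≤ 1 * A.valuation ((x⁻¹ : K) : Qbar) := mul_le_mul_left h _
      _ = A.valuation ((x⁻¹ : K) : Qbar) := one_mul _
      _ < 1 := h2
  rw [h3] at h4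
  exact lt_irrefl _ h4

theorem pl_valuation_lt_one_iff (x : K) :
    (pl_prime K A hℓ hA).valuation K x < 1 ↔ A.valuation (x : Qbar) < 1 := by
  refine ⟨pl_valuation_lt_one_of_lt_one K A hℓ hA, fun h => ?_⟩
  by_contra hcon
  rw [not_lt] at hcon
  rcases eq_or_ne x 0 with rfl | hx0
  · rw [map_zero] at hcon; exact not_le.2 zero_lt_one hcon
  have h1 : (pl_prime K A hℓ hA).valuation K x⁻¹ ≤ 1 := by
    rw [map_inv₀]
    exact inv_le_one_of_one_le₀ hcon
  have h2 := (pl_valuation_le_one_iff K A hℓ hA x⁻¹).1 h1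
  have h3 : A.valuation (x : Qbar) * A.valuation ((x⁻¹ : K) : Qbar) = 1 := by
    rw [← map_mul]
    have : (x : Qbar) * ((x⁻¹ : K) : Qbar) = 1 := by
      have := congrArg (fun y : K => (y : Qbar)) (mul_inv_cancel₀ hx0)
      simpa using this
    rw [this, map_one]
  have h4 : A.valuation (x : Qbar) * A.valuation ((x⁻¹ : K) : Qbar) < 1 := by
    calc A.valuation (x : Qbar) * A.valuation ((x⁻¹ : K) : Qbar)
        ≤ A.valuation (x : Qbar) * 1 := mul_le_mul_right h2 _
      _ = A.valuation (x : Qbar) := mul_one _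
      _ < 1 := h
  rw [h3] at h4
  exact lt_irrefl _ h4

theorem pl_valuation_eq_one_iff (x : K) :
    (pl_prime K A hℓ hA).valuation K x = 1 ↔ A.valuation (x : Qbar) = 1 := by
  constructor
  · intro h
    refine le_antisymm ((pl_valuation_le_one_iff K A hℓ hA x).1 h.le) ?_
    by_contra hcon
    have := (pl_valuation_lt_one_iff K A hℓ hA x).2 (not_le.1 hcon)
    rw [h] at this
    exact lt_irrefl _ this
  · intro h
    refine le_antisymm ((pl_valuation_le_one_iff K A hℓ hA x).2 h.le) ?_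
    by_contra hcon
    have := (pl_valuation_lt_one_iff K A hℓ hA x).1 (not_le.1 hcon)
    rw [h] at this
    exact lt_irrefl _ this

end NF

section Surj

variable (K : IntermediateField ℚ Qbar) [NumberField K]

attribute [local instance] Fermat.Agent.S14.Reduction.algebraIntQbar

/-- Every prime of `𝓞 K` containing the rational prime `q` lies below a valuation subring of `ℚ̄`
over `q`. -/
theorem pl_exists_valuationSubring (P : HeightOneSpectrum (𝓞 K)) {q : ℕ} (hq : q.Prime)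
    (hqP : ((q : ℕ) : 𝓞 K) ∈ P.asIdeal) :
    ∃ (A : ValuationSubring Qbar) (hA : A.LiesOverPrime q), pl_prime K A hq hA = P := by
  haveI hPmax : P.asIdeal.IsMaximal := P.isMaximal
  haveI := isIntegral_intQbar K
  obtain ⟨Q, hQmax, hQP⟩ :=
    Ideal.exists_maximal_ideal_liesOver_of_isIntegral (S := intQbar) P.asIdeal
  haveI := hQmax
  haveI := hQP
  haveI hQprime : Q.IsPrime := hQmax.isPrime
  have hmemQ : ∀ x : 𝓞 K, toIntQbar K x ∈ Q ↔ x ∈ P.asIdeal := by
    intro x
    rw [hQP.over]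
    rfl
  haveI hspanmax : (Ideal.span {(q : ℤ)}).IsMaximal :=
    PrincipalIdealRing.isMaximal_of_irreducible (Nat.prime_iff_prime_int.mp hq).irreducible
  haveI hQq : Q.LiesOver (Ideal.span {(q : ℤ)}) := by
    constructor
    refine hspanmax.eq_of_le (Ideal.IsPrime.ne_top (Ideal.IsPrime.under ℤ Q)) ?_
    rw [Ideal.span_singleton_le_iff_mem, Ideal.under_def, Ideal.mem_comap]
    have h1 : toIntQbar K ((q : ℕ) : 𝓞 K) ∈ Q := (hmemQ _).mpr hqP
    have h2 : algebraMap ℤ intQbar (q : ℤ) = toIntQbar K ((q : ℕ) : 𝓞 K) := by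
      rw [map_natCast]
      simp
    rw [h2]
    exact h1
  refine ⟨valSubring hq Q, liesOverPrime_valSubring hq Q, ?_⟩
  apply HeightOneSpectrum.ext
  ext x
  rw [pl_prime_asIdeal, pl_ideal, Ideal.mem_comap, pl_Q_valSubring, hmemQ]

/-- The residue characteristic of a prime of `𝓞 K`. -/
theorem pl_exists_prime_mem (P : HeightOneSpectrum (𝓞 K)) :
    ∃ q : ℕ, q.Prime ∧ ((q : ℕ) : 𝓞 K) ∈ P.asIdeal := by
  haveI hPmax : P.asIdeal.IsMaximal := P.isMaximal
  haveI : Finite (𝓞 K ⧸ P.asIdeal) := Ideal.finiteQuotientOfFreeOfNeBot P.asIdeal P.ne_bot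
  letI : Field (𝓞 K ⧸ P.asIdeal) := Ideal.Quotient.field P.asIdeal
  obtain ⟨ℓ, hchar⟩ := CharP.exists (𝓞 K ⧸ P.asIdeal)
  have hℓ : ℓ.Prime := by
    rcases CharP.char_is_prime_or_zero (𝓞 K ⧸ P.asIdeal) ℓ with h | h
    · exact h
    · exfalso
      subst h
      haveI := CharP.charP_to_charZero (𝓞 K ⧸ P.asIdeal)
      exact not_finite (𝓞 K ⧸ P.asIdeal)
  refine ⟨ℓ, hℓ, ?_⟩
  rw [← Ideal.Quotient.eq_zero_iff_mem, map_natCast]
  exact CharP.cast_eq_zero _ ℓ

/-- The primes of `𝓞 K` over a finite set `S` of rational primes. -/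
def pl_primesOver (S : Finset Nat.Primes) : Set (HeightOneSpectrum (𝓞 K)) :=
  {P | ∃ q ∈ S, (((q : ℕ) : ℕ) : 𝓞 K) ∈ P.asIdeal}

theorem pl_mem_primesOver {S : Finset Nat.Primes} {P : HeightOneSpectrum (𝓞 K)} :
    P ∈ pl_primesOver K S ↔ ∃ q ∈ S, (((q : ℕ) : ℕ) : 𝓞 K) ∈ P.asIdeal := Iff.rfl

/-- A valuation subring over `q` lies over a prime in `pl_primesOver K S` iff `q ∈ S`. -/
theorem pl_prime_mem_primesOver_iff {S : Finset Nat.Primes} (A : ValuationSubring Qbar)
    (q : Nat.Primes) (hA : A.LiesOverPrime (q : ℕ)) :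
    pl_prime K A q.2 hA ∈ pl_primesOver K S ↔ q ∈ S := by
  constructor
  · rintro ⟨q', hq'S, hq'⟩
    by_contra hqS
    have hne : (q : ℕ) ≠ (q' : ℕ) := by
      intro h
      apply hqS
      have : q = q' := Subtype.ext h
      rw [this]; exact hq'S
    rw [pl_prime_asIdeal, pl_mem_ideal] at hq'
    have h1 : A.valuation (((q' : ℕ) : ℕ) : Qbar) < 1 := by
      have : ((((((q' : ℕ) : ℕ) : 𝓞 K)) : K) : Qbar) = (((q' : ℕ) : ℕ) : Qbar) := by simp
      rwa [this] at hq'
    have h2 : A.valuation (((q : ℕ) : ℕ) : Qbar) < 1 :=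
      (ValuationSubring.mem_nonunits_iff (A := A)).1 hA
    exact tl_not_two_primes A q'.2 q.2 hne h1 h2
  · intro hqS
    exact ⟨q, hqS, pl_natCast_mem_ideal K A hA⟩

/-- **`S`-units.** For `x ∈ K`, being an `S`-unit in the valuation-subring language is the same
as having valuation one at all primes of `𝓞 K` not over `S`. -/
theorem pl_isSUnit_iff (S : Finset Nat.Primes) (x : K) :
    ku_IsSUnit S (x : Qbar) ↔
      ∀ P : HeightOneSpectrum (𝓞 K), P ∉ pl_primesOver K S → P.valuation K x = 1 := by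
  constructor
  · intro h P hP
    obtain ⟨q, hq, hqP⟩ := pl_exists_prime_mem K P
    obtain ⟨A, hA, rfl⟩ := pl_exists_valuationSubring K P hq hqP
    have hqS : (⟨q, hq⟩ : Nat.Primes) ∉ S := fun hqS =>
      hP ((pl_prime_mem_primesOver_iff K A ⟨q, hq⟩ hA).2 hqS)
    rw [pl_valuation_eq_one_iff]
    exact h ⟨q, hq⟩ hqS A hA
  · intro h q hqS A hA
    rw [← pl_valuation_eq_one_iff K A q.2 hA]
    exact h _ (fun hmem => hqS ((pl_prime_mem_primesOver_iff K A q hA).1 hmem))

/-- `S`-units in terms of Mathlib's `Set.unit`. -/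
theorem pl_isSUnit_iff_mem_unit (S : Finset Nat.Primes) (x : Kˣ) :
    ku_IsSUnit S (((x : Kˣ) : K) : Qbar) ↔ x ∈ (pl_primesOver K S).unit K := by
  rw [pl_isSUnit_iff]
  exact Iff.rfl

theorem pl_finite_primesOver (S : Finset Nat.Primes) : (pl_primesOver K S).Finite := by
  have h : pl_primesOver K S = ⋃ q ∈ S, {P : HeightOneSpectrum (𝓞 K) |
      P.asIdeal ∣ Ideal.span {(((q : ℕ) : ℕ) : 𝓞 K)}} := by
    ext P
    simp only [pl_primesOver, Set.mem_iUnion, exists_prop, Ideal.dvd_span_singleton]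
    rfl
  rw [h]
  refine Set.Finite.biUnion S.finite_toSet fun q _ => ?_
  refine Ideal.finite_factors ?_
  intro h0
  have h1 : Ideal.span {(((q : ℕ) : ℕ) : 𝓞 K)} = ⊥ := h0
  rw [Ideal.span_singleton_eq_bot] at h1
  exact (Nat.cast_ne_zero (R := 𝓞 K)).2 q.2.ne_zero h1

end Surj

end Fermat.Agent.S55
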